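import Mathlib
import Fermat.Prelude.Def_FLTPrelim_Modularity

/-!
# S58, leaf COUNT — core: `1 ≤ #W(𝔽) ≤ 2 #𝔽 + 1` for a Weierstrass curve over a finite field
-/

set_option autoImplicit false
set_option linter.unusedSectionVars false
set_option linter.style.haveILetI false

namespace Fermat.Agent.S58.H825

open Polynomial WeierstrassCurve

variable {F : Type} [Field F] [Fintype F] [DecidableEq F]

/-- The monic quadratic in `y` cut out by the Weierstrass equation at a fixed `x`. -/
noncomputable def fibrePoly (W : WeierstrassCurve F) (x : F) : F[X] :=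
  X ^ 2 + C (W.a₁ * x + W.a₃) * X - C (x ^ 3 + W.a₂ * x ^ 2 + W.a₄ * x + W.a₆)

theorem fibrePoly_monic (W : WeierstrassCurve F) (x : F) : (fibrePoly W x).Monic := by
  unfold fibrePoly
  monicity!

theorem fibrePoly_ne_zero (W : WeierstrassCurve F) (x : F) : fibrePoly W x ≠ 0 :=
  (fibrePoly_monic W x).ne_zero

theorem fibrePoly_natDegree_le (W : WeierstrassCurve F) (x : F) :
    (fibrePoly W x).natDegree ≤ 2 := by
  unfold fibrePoly
  compute_degree

theorem fibrePoly_eval (W : WeierstrassCurve F) (x y : F) :
    (fibrePoly W x).eval y =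
      y ^ 2 + (W.a₁ * x + W.a₃) * y - (x ^ 3 + W.a₂ * x ^ 2 + W.a₄ * x + W.a₆) := by
  simp [fibrePoly]

/-- The coordinates of an affine point, `none` for the point at infinity. -/
def coords (W : WeierstrassCurve F) : W.toAffine.Point → Option (F × F)
  | .zero => none
  | .some x y _ => some (x, y)

theorem coords_injective (W : WeierstrassCurve F) : Function.Injective (coords W) := by
  rintro (_ | ⟨x₁, y₁, h₁⟩) (_ | ⟨x₂, y₂, h₂⟩) h <;>
    simp only [coords, Option.some.injEq, Prod.mk.injEq, reduceCtorEq] at h
  · rfl
  · obtain ⟨rfl, rfl⟩ := h; rfl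

/-- The finite set of solutions of the Weierstrass equation. -/
noncomputable def solSet (W : WeierstrassCurve F) : Finset (F × F) :=
  Finset.univ.biUnion fun x : F => ((fibrePoly W x).roots.toFinset).image fun y => (x, y)

theorem card_solSet_le (W : WeierstrassCurve F) :
    (solSet W).card ≤ 2 * Fintype.card F := by
  unfold solSet
  refine (Finset.card_biUnion_le).trans ?_
  have h : ∀ x ∈ (Finset.univ : Finset F),
      (((fibrePoly W x).roots.toFinset).image fun y => (x, y)).card ≤ 2 := by
    intro x _
    refine (Finset.card_image_le).trans ?_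
    refine (Multiset.toFinset_card_le _).trans ?_
    exact (Polynomial.card_roots' _).trans (fibrePoly_natDegree_le W x)
  refine (Finset.sum_le_sum h).trans ?_
  rw [Finset.sum_const, smul_eq_mul, Finset.card_univ, mul_comm]

theorem coords_mem (W : WeierstrassCurve F) (P : W.toAffine.Point) :
    coords W P ∈ insert none ((solSet W).image some) := by
  rcases P with _ | ⟨x, y, h⟩
  · exact Finset.mem_insert_self _ _
  · refine Finset.mem_insert_of_mem (Finset.mem_image_of_mem _ ?_)
    unfold solSet
    rw [Finset.mem_biUnion]
    refine ⟨x, Finset.mem_univ _, Finset.mem_image_of_mem _ ?_⟩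
    rw [Multiset.mem_toFinset, Polynomial.mem_roots (fibrePoly_ne_zero W x), IsRoot.def,
      fibrePoly_eval]
    have e := (Affine.equation_iff x y).mp h.1
    linear_combination e

/-- `#W(𝔽) ≤ 2 #𝔽 + 1`. -/
theorem natCard_point_le (W : WeierstrassCurve F) :
    Nat.card W.toAffine.Point ≤ 2 * Fintype.card F + 1 := by
  classical
  have hfin : Finite W.toAffine.Point := Finite.of_injective _ (coords_injective W)
  letI : Fintype W.toAffine.Point := Fintype.ofFinite _
  rw [Nat.card_eq_fintype_card]
  have h1 : Fintype.card W.toAffine.Point ≤ (insert none ((solSet W).image some)).card := by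
    rw [← Finset.card_univ]
    refine Finset.card_le_card_of_injOn (coords W) ?_ ?_
    · intro P _
      exact coords_mem W P
    · intro a _ b _ hab
      exact coords_injective W hab
  refine h1.trans ?_
  refine (Finset.card_insert_le _ _).trans ?_
  refine Nat.succ_le_succ ?_
  exact (Finset.card_image_le).trans (card_solSet_le W)

/-- `1 ≤ #W(𝔽)`. -/
theorem one_le_natCard_point (W : WeierstrassCurve F) : 1 ≤ Nat.card W.toAffine.Point := by
  have hfin : Finite W.toAffine.Point := Finite.of_injective _ (coords_injective W)
  exact Nat.one_le_iff_ne_zero.mpr (Nat.card_ne_zero.mpr ⟨⟨0⟩, hfin⟩)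

end Fermat.Agent.S58.H825
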