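import Fermat.Agent.S58.Spec
import Fermat.Agent.S58.H825.CountCore

/-!
# S58, leaf COUNT: `PointCountStatement` (verbatim, unconditional)
-/

set_option autoImplicit false

namespace Fermat.Agent.S58.H825

open WeierstrassCurve

/-- **Leaf COUNT.** `a_q(W) ≠ ±(q + 1)`. -/
theorem pointCount : Fermat.Agent.S58.PointCountStatement := by
  intro W q hq
  haveI : Fact q.Prime := ⟨hq⟩
  classical
  have h1 := one_le_natCard_point (W.reductionMod q)
  have h2 := natCard_point_le (W.reductionMod q)
  rw [ZMod.card] at h2
  have hdef : W.apOfModel q = (q : ℤ) + 1 - (Nat.card (W.reductionMod q).toAffine.Point : ℤ) := by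
    unfold WeierstrassCurve.apOfModel WeierstrassCurve.traceOfFrobenius WeierstrassCurve.card
    rw [Nat.card_eq_fintype_card, ZMod.card]
  constructor
  · intro h
    rw [hdef] at h
    have : (Nat.card (W.reductionMod q).toAffine.Point : ℤ) = 0 := by linarith
    have h3 : Nat.card (W.reductionMod q).toAffine.Point = 0 := by exact_mod_cast this
    omega
  · intro h
    rw [hdef] at h
    have : (Nat.card (W.reductionMod q).toAffine.Point : ℤ) = 2 * (q : ℤ) + 2 := by linarith
    have h3 : Nat.card (W.reductionMod q).toAffine.Point = 2 * q + 2 := by exact_mod_cast this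
    omega

end Fermat.Agent.S58.H825
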