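import Fermat.Agent.S58.Spec
import Fermat.Agent.S54.FrobExists

/-!
# S58, leaf FROB: `FrobExistsStatement` (verbatim, unconditional)
-/

set_option autoImplicit false

namespace Fermat.Agent.S58.H825

/-- **Leaf FROB.** Frobenius elements exist at every prime. -/
theorem frobExists : Fermat.Agent.S58.FrobExistsStatement := by
  intro ℓ hℓ
  exact Fermat.Agent.S54.exists_frobenius ℓ hℓ

end Fermat.Agent.S58.H825
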